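/-
S26lib / CurvePlace / FunctionField (helper9).
Every finitely generated field extension `F / K` of transcendence degree one over an algebraically
closed field `K` (any characteristic) is a curve of some genus in the sense of
`S18lib.IsCurveOfGenus`: Mathlib's separating transcendence bases over perfect fields + (RRgen).
-/
import Mathlib
import Fermat.Agent.S18lib.RRgen.Canonical

set_option autoImplicit false

noncomputable section

namespace Fermat.Agent.S26lib.CurvePlace

open AlgebraicCurve IntermediateField Fermat.Agent.S18lib

/-- a separating transcendental element of a function field of one variable -/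
theorem exists_separating_element (K F : Type*) [Field K] [PerfectField K] [Field F] [Algebra K F]
    [Algebra.EssFiniteType K F] (h : Algebra.trdeg K F = 1) :
    ∃ x : F, Transcendental K x ∧ FiniteDimensional K⟮x⟯ F ∧ Algebra.IsSeparable K⟮x⟯ F := by
  obtain ⟨s, hs, hsep⟩ := exists_isTranscendenceBasis_and_isSeparable_of_perfectField K F
  have hcard : s.card = 1 := by
    have h1 := hs.cardinalMk_eq_trdeg
    rw [h, Cardinal.mk_coe_finset] at h1
    exact_mod_cast h1
  obtain ⟨x, rfl⟩ := Finset.card_eq_one.mp hcard
  have hx : Transcendental K x := by
    have := hs.1.transcendental ⟨x, Finset.mem_singleton_self x⟩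
    exact this
  have halg : Algebra.IsAlgebraic (adjoin K (((({x} : Finset F)) : Set F))) F := by
    convert hs.isAlgebraic_field <;> simp
  rw [Finset.coe_singleton] at hsep halg
  have hess : Algebra.EssFiniteType K⟮x⟯ F := Algebra.EssFiniteType.of_comp K K⟮x⟯ F
  exact ⟨x, hx, Algebra.finite_of_essFiniteType_of_isAlgebraic (F := K⟮x⟯) (E := F), hsep⟩

/-- **function fields of one variable over an algebraically closed field are curves** -/
theorem exists_isCurveOfGenus_of_trdeg (K F : Type*) [Field K] [IsAlgClosed K] [Field F]
    [Algebra K F] [Algebra.EssFiniteType K F] (h : Algebra.trdeg K F = 1) :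
    ∃ γ : ℕ, IsCurveOfGenus K F γ := by
  obtain ⟨x, hx, hfin, hsep⟩ := exists_separating_element K F h
  exact ⟨_, RRgen.Canonical.isCurveOfGenus_genusOf K hx⟩

end Fermat.Agent.S26lib.CurvePlace
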