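/-
S26lib / CurvePlace / Place (helper9).
The dictionary between the DVR points of an integral `K`-scheme `C` (`Weil.PrimeDiv C`) and the
places of its function field in the Prelude language (`AlgebraicCurve.Place K K(C)`):

* `placeOf fC P` : the place with valuation ring `O_{C,P} ⊆ K(C)`;  `ord_placeOf`;
* `placeOf_injective` (`fC` separated), `placeOf_surjective` (`fC` universally closed and every
  non-generic point of `C` is a DVR point, i.e. `C` is a regular curve), `placeEquiv`.
-/
import Mathlib
import Fermat.Agent.S26lib.Weil.Model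
import Fermat.Agent.S26lib.P5a.Centre
import Fermat.Agent.S26lib.CurvePlace.FunctionField

set_option autoImplicit false

noncomputable section

universe u

open AlgebraicGeometry CategoryTheory AlgebraicCurve

namespace Fermat.Agent.S26lib.CurvePlace

open Weil

variable {K : Type u} [Field K] {C : Scheme.{u}} [IsIntegral C] [IsLocallyNoetherian C]

/-! ### more on `ordAt` -/

theorem ordAt_one (P : PrimeDiv C) : ordAt P (1 : C.functionField) = 0 := by
  have h := ordAt_mul P (one_ne_zero : (1 : C.functionField) ≠ 0) one_ne_zero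
  rw [one_mul] at h
  omega

theorem ordAt_inv (P : PrimeDiv C) (x : C.functionField) : ordAt P x⁻¹ = -ordAt P x := by
  rcases eq_or_ne x 0 with rfl | hx
  · rw [inv_zero, ordAt_zero, neg_zero]
  have h := ordAt_mul P hx (inv_ne_zero hx)
  rw [mul_inv_cancel₀ hx, ordAt_one] at h
  omega

theorem ordAt_pow (P : PrimeDiv C) (x : C.functionField) (n : ℕ) :
    ordAt P (x ^ n) = n * ordAt P x := by
  rcases eq_or_ne x 0 with rfl | hx
  · rcases Nat.eq_zero_or_pos n with rfl | hn
    · simp [ordAt_one]
    · rw [zero_pow hn.ne', ordAt_zero, mul_zero]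
  induction n with
  | zero => simp [ordAt_one]
  | succ n ih =>
    rw [pow_succ, ordAt_mul P (pow_ne_zero n hx) hx, ih]
    push_cast
    ring

theorem ordAt_zpow (P : PrimeDiv C) (x : C.functionField) (n : ℤ) :
    ordAt P (x ^ n) = n * ordAt P x := by
  obtain ⟨m, rfl | rfl⟩ := Int.eq_nat_or_neg n
  · rw [zpow_natCast, ordAt_pow]
  · rw [zpow_neg, zpow_natCast, ordAt_inv, ordAt_pow]
    ring

/-! ### the valuation ring of a DVR point -/

/-- the local ring of a DVR point as a valuation subring of the function field -/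
def stalkVal (P : PrimeDiv C) : ValuationSubring C.functionField :=
  { (Quad.toFF C P.1).range with
    mem_or_inv_mem' := fun x => by
      rcases eq_or_ne x 0 with rfl | hx
      · exact Or.inl ⟨0, map_zero _⟩
      rcases le_total 0 (ordAt P x) with h | h
      · exact Or.inl ((ordAt_nonneg_iff P hx).mp h)
      · refine Or.inr ((ordAt_nonneg_iff P (inv_ne_zero hx)).mp ?_)
        rw [ordAt_inv]
        omega }

theorem mem_stalkVal_iff {P : PrimeDiv C} {x : C.functionField} :
    x ∈ stalkVal P ↔ x ∈ Set.range (Quad.toFF C P.1) := Iff.rfl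

theorem mem_stalkVal_iff_ordAt {P : PrimeDiv C} {x : C.functionField} (hx : x ≠ 0) :
    x ∈ stalkVal P ↔ 0 ≤ ordAt P x :=
  (ordAt_nonneg_iff P hx).symm

theorem toFF_mem_stalkVal (P : PrimeDiv C) (a : C.presheaf.stalk P.1) :
    Quad.toFF C P.1 a ∈ stalkVal P := ⟨a, rfl⟩

/-- the local ring is isomorphic to its image in the function field -/
def stalkEquiv (P : PrimeDiv C) : C.presheaf.stalk P.1 ≃+* stalkVal P :=
  RingEquiv.ofBijective ((Quad.toFF C P.1).codRestrict (stalkVal P) (toFF_mem_stalkVal P))
    ⟨fun _ _ h => Quad.toFF_injective C P.1 (congrArg Subtype.val h),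
      fun ⟨_, a, ha⟩ => ⟨a, Subtype.ext ha⟩⟩

@[simp]
theorem coe_stalkEquiv (P : PrimeDiv C) (a : C.presheaf.stalk P.1) :
    ((stalkEquiv P a : stalkVal P) : C.functionField) = Quad.toFF C P.1 a := rfl

theorem stalkVal_ne_top (P : PrimeDiv C) : stalkVal P ≠ ⊤ := by
  intro h
  obtain ⟨x, hx, h1⟩ := exists_ordAt_eq_one P
  have hmem : x⁻¹ ∈ stalkVal P := by rw [h]; exact ValuationSubring.mem_top _
  rw [mem_stalkVal_iff_ordAt (inv_ne_zero hx), ordAt_inv, h1] at hmem
  omega

instance (P : PrimeDiv C) : IsPrincipalIdealRing (stalkVal P) :=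
  haveI := P.2
  IsPrincipalIdealRing.of_surjective (stalkEquiv P).toRingHom (stalkEquiv P).surjective

/-- constants have order zero (no noetherian hypothesis beyond local noetherianity) -/
theorem ordAt_algebraMap (fC : C ⟶ Spec (CommRingCat.of K)) (P : PrimeDiv C) (c : K) :
    ordAt P ((kToFF fC).hom c) = 0 := by
  rcases eq_or_ne c 0 with rfl | hc
  · rw [map_zero, ordAt_zero]
  · have hu : IsUnit (fC.appTop.hom ((Scheme.ΓSpecIso (CommRingCat.of K)).inv.hom c)) :=
      (hc.isUnit.map _).map _
    exact ordAt_germ_of_isUnit P (U := ⊤) hu trivial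

/-- **the place of a DVR point** -/
def placeOf (fC : C ⟶ Spec (CommRingCat.of K)) (P : PrimeDiv C) :
    letI := kAlgebraFF fC
    Place K C.functionField :=
  letI := kAlgebraFF fC
  { toValuationSubring := stalkVal P
    algebraMap_mem' := fun a => by
      rcases eq_or_ne a 0 with rfl | ha
      · rw [map_zero]; exact zero_mem _
      · have h0 : algebraMap K C.functionField a ≠ 0 := (map_ne_zero _).mpr ha
        rw [mem_stalkVal_iff_ordAt h0]
        exact (ordAt_algebraMap fC P a).ge
    ne_top' := stalkVal_ne_top P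
    isPrincipalIdealRing' := inferInstance }

theorem placeOf_toValuationSubring (fC : C ⟶ Spec (CommRingCat.of K)) (P : PrimeDiv C) :
    letI := kAlgebraFF fC
    (placeOf fC P).toValuationSubring = stalkVal P := rfl

/-- the order function of the place of a DVR point is the order function of the point -/
theorem ord_placeOf (fC : C ⟶ Spec (CommRingCat.of K)) (P : PrimeDiv C) (h : C.functionField) :
    letI := kAlgebraFF fC
    (placeOf fC P).ord h = ordAt P h := by
  let _ := kAlgebraFF fC
  have := P.2
  rcases eq_or_ne h 0 with rfl | hh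
  · rw [Place.ord_zero, ordAt_zero]
  obtain ⟨ϖ, hϖ⟩ := IsDiscreteValuationRing.exists_irreducible (C.presheaf.stalk P.1)
  have hπ : Irreducible (stalkEquiv P ϖ) :=
    (MulEquiv.irreducible_iff (stalkEquiv P).toMulEquiv).mpr hϖ
  obtain ⟨u, hu⟩ := (placeOf fC P).exists_unit_mul_zpow hh hπ
  set u' : C.functionField := ((u : (placeOf fC P).toValuationSubring) : C.functionField)
    with hu'
  have hu_mem : u' ∈ stalkVal P := (u : (placeOf fC P).toValuationSubring).2
  have huinv_mem : u'⁻¹ ∈ stalkVal P := by
    have hmem := ((u⁻¹ : ((placeOf fC P).toValuationSubring)ˣ) :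
      (placeOf fC P).toValuationSubring).2
    have hmul : u' * (((u⁻¹ : ((placeOf fC P).toValuationSubring)ˣ) :
        (placeOf fC P).toValuationSubring) : C.functionField) = 1 := by
      rw [hu', ← MulMemClass.coe_mul, Units.mul_inv, OneMemClass.coe_one]
    rw [← eq_inv_of_mul_eq_one_right hmul]
    exact hmem
  have hu0 : u' ≠ 0 := by
    intro h0
    exact u.ne_zero (Subtype.ext h0)
  have hπ0 : ((stalkEquiv P ϖ : stalkVal P) : C.functionField) ≠ 0 :=
    Quad.toFF_ne_zero C hϖ.ne_zero
  -- units have order zero
  have hord_u : ordAt P u' = 0 := by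
    have h1 := (mem_stalkVal_iff_ordAt hu0).mp hu_mem
    have h2 := (mem_stalkVal_iff_ordAt (inv_ne_zero hu0)).mp huinv_mem
    rw [ordAt_inv] at h2
    omega
  -- the uniformizer has order one
  have hord_π : ordAt P ((stalkEquiv P ϖ : stalkVal P) : C.functionField) = 1 := by
    rw [coe_stalkEquiv]
    have := ordAt_toFF_eq_of_addVal P (a := ϖ) (n := 1)
      (by rw [IsDiscreteValuationRing.addVal_uniformizer hϖ]; rfl)
    exact_mod_cast this
  have key : ordAt P h = ordAt P (u' *
      ((stalkEquiv P ϖ : stalkVal P) : C.functionField) ^ ((placeOf fC P).ord h)) :=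
    congrArg (ordAt P) hu
  rw [ordAt_mul P hu0 (zpow_ne_zero _ hπ0), hord_u, ordAt_zpow, hord_π] at key
  omega

/-! ### surjectivity: centres of places -/

omit [IsLocallyNoetherian C] in
theorem constHom_eq_kToFF (fC : C ⟶ Spec (CommRingCat.of K)) : P5a.constHom fC = kToFF fC := rfl

/-- On a universally closed regular curve every place is the place of a (unique) DVR point. -/
theorem placeOf_surjective (fC : C ⟶ Spec (CommRingCat.of K)) [UniversallyClosed fC]
    [QuasiCompact fC]
    (hreg : ∀ c : C, c = genericPoint C ∨ IsDiscreteValuationRing (C.presheaf.stalk c)) :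
    letI := kAlgebraFF fC
    Function.Surjective (placeOf fC) := by
  let _ := kAlgebraFF fC
  intro v
  obtain ⟨z, hz₁, hz₂⟩ := P5a.exists_centre fC v.toValuationSubring
    (fun c => v.algebraMap_mem' c)
  -- the centre is not the generic point
  have hzη : z ≠ genericPoint C := by
    rintro rfl
    apply v.ne_top'
    refine SetLike.ext fun x => ⟨fun _ => ValuationSubring.mem_top x, fun _ => ?_⟩
    have := hz₁ x
    rwa [Quad.toFF_generic] at this
  have hdvr := (hreg z).resolve_left hzη
  let P : PrimeDiv C := ⟨z, hdvr⟩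
  refine ⟨P, Place.ext ?_⟩
  show stalkVal P = v.toValuationSubring
  refine SetLike.ext fun x => ⟨?_, fun hx => ?_⟩
  · rintro ⟨a, rfl⟩
    exact hz₁ a
  · -- a valuation ring dominating a DVR is equal to it
    by_contra hnot
    have hx0 : x ≠ 0 := by
      rintro rfl
      exact hnot (zero_mem _)
    have hneg : ordAt P x < 0 := by
      by_contra hge
      exact hnot ((mem_stalkVal_iff_ordAt hx0).mpr (not_lt.mp hge))
    have hpos : 0 < ordAt P x⁻¹ := by rw [ordAt_inv]; omega
    obtain ⟨a, ham, hax⟩ := (ordAt_pos_iff P (inv_ne_zero hx0)).mp hpos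
    have hne : algebraMap (C.presheaf.stalk z) C.functionField a ≠ 0 := by
      show Quad.toFF C z a ≠ 0
      rw [hax]; exact inv_ne_zero hx0
    apply hz₂ a ham hne
    show (Quad.toFF C z a)⁻¹ ∈ v.toValuationSubring
    rw [hax, inv_inv]
    exact hx

/-! ### injectivity: the valuative criterion of separatedness -/

section Inj

omit [IsLocallyNoetherian C]

/-- the inclusion of a local ring into a valuation ring containing it -/
def toVal (V : ValuationSubring C.functionField) (z : C)
    (hz : ∀ a, Quad.toFF C z a ∈ V.toSubring) : C.presheaf.stalk z →+* V :=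
  (Quad.toFF C z).codRestrict V.toSubring hz

theorem isLocalHom_of_bijective {R S : Type*} [CommRing R] [CommRing S] (φ : R →+* S)
    (h : Function.Bijective φ) : IsLocalHom φ :=
  ⟨fun _ ha => (MulEquiv.isUnit_map (f := RingEquiv.ofBijective φ h)).mp ha⟩

/-- the morphism `Spec V ⟶ C` attached to a point whose local ring is contained in `V` -/
def specValTo (V : ValuationSubring C.functionField) (z : C)
    (hz : ∀ a, Quad.toFF C z a ∈ V.toSubring) : Spec (CommRingCat.of V) ⟶ C :=
  Spec.map (CommRingCat.ofHom (toVal V z hz)) ≫ C.fromSpecStalk z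

theorem specValTo_generic (V : ValuationSubring C.functionField) (z : C)
    (hz : ∀ a, Quad.toFF C z a ∈ V.toSubring) :
    Spec.map (CommRingCat.ofHom (algebraMap V C.functionField)) ≫ specValTo V z hz =
      C.fromSpecStalk (genericPoint C) := by
  rw [specValTo, ← Category.assoc, ← Spec.map_comp]
  have : CommRingCat.ofHom (toVal V z hz) ≫
      CommRingCat.ofHom (algebraMap V C.functionField) =
      C.presheaf.stalkSpecializes (Quad.generic_specializes C z) := by
    ext a
    rfl
  rw [this, Scheme.SpecMap_stalkSpecializes_fromSpecStalk]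

theorem specValTo_closedPoint (V : ValuationSubring C.functionField) (z : C)
    (hz : ∀ a, Quad.toFF C z a ∈ V.toSubring) (hloc : IsLocalHom (toVal V z hz)) :
    specValTo V z hz (IsLocalRing.closedPoint V) = z := by
  have h1 : Spec.map (CommRingCat.ofHom (toVal V z hz)) (IsLocalRing.closedPoint V) =
      IsLocalRing.closedPoint (C.presheaf.stalk z) :=
    IsLocalRing.comap_closedPoint _
  show C.fromSpecStalk z (Spec.map (CommRingCat.ofHom (toVal V z hz))
    (IsLocalRing.closedPoint V)) = z
  rw [h1, Scheme.fromSpecStalk_closedPoint]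

/-- two morphisms from `Spec V` to `Spec K` which agree on the generic point are equal -/
theorem hom_spec_ext (V : ValuationSubring C.functionField)
    (g₁ g₂ : Spec (CommRingCat.of V) ⟶ Spec (CommRingCat.of K))
    (h : Spec.map (CommRingCat.ofHom (algebraMap V C.functionField)) ≫ g₁ =
      Spec.map (CommRingCat.ofHom (algebraMap V C.functionField)) ≫ g₂) : g₁ = g₂ := by
  rw [← Spec.map_preimage g₁, ← Spec.map_preimage g₂, ← Spec.map_comp, ← Spec.map_comp,
    Spec.map_inj] at h
  rw [← Spec.map_preimage g₁, ← Spec.map_preimage g₂]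
  congr 1
  ext c
  exact congrArg (fun φ => φ.hom c) h

/-- on a separated integral `K`-scheme a point is determined by its local ring, if the latter is a
valuation ring -/
theorem eq_of_range_toFF_eq (fC : C ⟶ Spec (CommRingCat.of K)) [IsSeparated fC]
    (V : ValuationSubring C.functionField) {z z' : C}
    (hz : ∀ x, x ∈ V ↔ x ∈ Set.range (Quad.toFF C z))
    (hz' : ∀ x, x ∈ V ↔ x ∈ Set.range (Quad.toFF C z')) : z = z' := by
  have huniq := IsSeparated.valuativeCriterion fC
  have hmem : ∀ a, Quad.toFF C z a ∈ V.toSubring := fun a => (hz _).mpr ⟨a, rfl⟩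
  have hmem' : ∀ a, Quad.toFF C z' a ∈ V.toSubring := fun a => (hz' _).mpr ⟨a, rfl⟩
  -- the two restricted maps are isomorphisms, hence local
  have hloc : IsLocalHom (toVal V z hmem) :=
    isLocalHom_of_bijective _
      ⟨fun _ _ h => Quad.toFF_injective C z (congrArg Subtype.val h),
        fun ⟨x, hx⟩ => by
          obtain ⟨a, ha⟩ := (hz x).mp hx
          exact ⟨a, Subtype.ext ha⟩⟩
  have hloc' : IsLocalHom (toVal V z' hmem') :=
    isLocalHom_of_bijective _
      ⟨fun _ _ h => Quad.toFF_injective C z' (congrArg Subtype.val h),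
        fun ⟨x, hx⟩ => by
          obtain ⟨a, ha⟩ := (hz' x).mp hx
          exact ⟨a, Subtype.ext ha⟩⟩
  let l := specValTo V z hmem
  let l' := specValTo V z' hmem'
  have hl := specValTo_generic V z hmem
  have hl' := specValTo_generic V z' hmem'
  have hfC : l' ≫ fC = l ≫ fC := by
    apply hom_spec_ext V
    rw [← Category.assoc, ← Category.assoc, hl, hl']
  let S : ValuativeCommSq fC :=
    { R := V
      K := C.functionField
      i₁ := C.fromSpecStalk (genericPoint C)
      i₂ := l ≫ fC
      commSq := ⟨by rw [← Category.assoc, hl]⟩ }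
  have hsub := huniq S
  have heq : (⟨l, hl, rfl⟩ : S.commSq.LiftStruct) = ⟨l', hl', hfC⟩ := Subsingleton.elim _ _
  have hll : l = l' := congrArg CommSq.LiftStruct.l heq
  rw [← specValTo_closedPoint V z hmem hloc, ← specValTo_closedPoint V z' hmem' hloc']
  exact congrArg (fun l : Spec (CommRingCat.of V) ⟶ C => l (IsLocalRing.closedPoint V)) hll

end Inj

theorem placeOf_injective (fC : C ⟶ Spec (CommRingCat.of K)) [IsSeparated fC] :
    letI := kAlgebraFF fC
    Function.Injective (placeOf fC) := by
  let _ := kAlgebraFF fC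
  intro P Q hPQ
  have hV : stalkVal P = stalkVal Q := congrArg Place.toValuationSubring hPQ
  apply Subtype.ext
  refine eq_of_range_toFF_eq fC (stalkVal P) (fun x => Iff.rfl) (fun x => ?_)
  rw [hV]
  exact Iff.rfl

/-- **DVR points of a proper regular curve = places of its function field** -/
def placeEquiv (fC : C ⟶ Spec (CommRingCat.of K)) [IsSeparated fC] [UniversallyClosed fC]
    [QuasiCompact fC]
    (hreg : ∀ c : C, c = genericPoint C ∨ IsDiscreteValuationRing (C.presheaf.stalk c)) :
    letI := kAlgebraFF fC
    PrimeDiv C ≃ Place K C.functionField :=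
  letI := kAlgebraFF fC
  Equiv.ofBijective (placeOf fC) ⟨placeOf_injective fC, placeOf_surjective fC hreg⟩

theorem placeEquiv_apply (fC : C ⟶ Spec (CommRingCat.of K)) [IsSeparated fC]
    [UniversallyClosed fC] [QuasiCompact fC]
    (hreg : ∀ c : C, c = genericPoint C ∨ IsDiscreteValuationRing (C.presheaf.stalk c))
    (P : PrimeDiv C) : placeEquiv fC hreg P = placeOf fC P := rfl

end Fermat.Agent.S26lib.CurvePlace
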