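/-
S26lib / CurvePlace / Curve (helper9).
Riemann's theorem and the two-chart Čech vanishing on a proper regular curve `C` over an
algebraically closed field, in SCHEME language (`Weil.PrimeDiv C`, `Weil.ordAt`), obtained from
`CechRR` through the dictionary `placeOf`.

* `essFiniteType_functionField`, `exists_isCurveOfGenus`;
* `exists_nonspecial_cech` : for a non-constant `x ∈ K(C)` and a finite set `T` of points there is an
  effective divisor `D₀` off `T` with `H⁰(C, O(D₀)) = K` such that every section of `O(D₀)` over
  `{x ≠ 0, ∞}` is the sum of a section over `{x ≠ ∞}` and a section over `{x ≠ 0}`.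
-/
import Mathlib
import Fermat.Agent.S26lib.CurvePlace.Place
import Fermat.Agent.S26lib.P5a.FinType
import Fermat.Agent.S26lib.CechRR.NonSpecial

set_option autoImplicit false

noncomputable section

universe u

open AlgebraicGeometry CategoryTheory AlgebraicCurve

namespace Fermat.Agent.S26lib.CurvePlace

open Weil Fermat.Agent.S18lib

variable {K : Type u} [Field K] {C : Scheme.{u}} [IsIntegral C]

/-- the function field of an integral `K`-scheme locally of finite type is a finitely generated
field extension of `K` -/
theorem essFiniteType_functionField (fC : C ⟶ Spec (CommRingCat.of K)) [LocallyOfFiniteType fC] :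
    letI := kAlgebraFF fC
    Algebra.EssFiniteType K C.functionField := by
  let _ := kAlgebraFF fC
  obtain ⟨_, ⟨V, hV, rfl⟩, hηV, -⟩ := C.isBasis_affineOpens.exists_subset_of_mem_open
    (Set.mem_univ (genericPoint C)) isOpen_univ
  have : Nonempty V := ⟨⟨genericPoint C, hηV⟩⟩
  let _ : Algebra K Γ(C, V) := (P5a.constHomOpen fC V).hom.toAlgebra
  have : IsScalarTower K Γ(C, V) C.functionField := by
    refine .of_algebraMap_eq' ?_
    have := P5a.constHomOpen_germ fC V
    exact congrArg (fun φ => φ.hom) this.symm
  have : IsFractionRing Γ(C, V) C.functionField :=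
    functionField_isFractionRing_of_isAffineOpen C V hV
  have hft : Algebra.FiniteType K Γ(C, V) := P5a.finiteType_constHomOpen fC hV
  have : Algebra.EssFiniteType Γ(C, V) C.functionField :=
    Algebra.EssFiniteType.of_isLocalization _ (nonZeroDivisors Γ(C, V))
  exact Algebra.EssFiniteType.comp K Γ(C, V) C.functionField

/-- **an integral `K`-scheme of finite type with function field of transcendence degree one is a
curve of some genus** (`K` algebraically closed). -/
theorem exists_isCurveOfGenus [IsAlgClosed K] (fC : C ⟶ Spec (CommRingCat.of K))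
    [LocallyOfFiniteType fC]
    (htr : letI := kAlgebraFF fC; Algebra.trdeg K C.functionField = 1) :
    letI := kAlgebraFF fC
    ∃ γ : ℕ, IsCurveOfGenus K C.functionField γ := by
  let _ := kAlgebraFF fC
  have := essFiniteType_functionField fC
  exact exists_isCurveOfGenus_of_trdeg K C.functionField htr

variable [IsLocallyNoetherian C]

/-- **Čech vanishing for a non-special divisor on a proper regular curve**, in scheme language. -/
theorem exists_nonspecial_cech [IsAlgClosed K] (fC : C ⟶ Spec (CommRingCat.of K))
    [LocallyOfFiniteType fC] [IsSeparated fC] [UniversallyClosed fC] [QuasiCompact fC]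
    (hreg : ∀ c : C, c = genericPoint C ∨ IsDiscreteValuationRing (C.presheaf.stalk c))
    (htr : letI := kAlgebraFF fC; Algebra.trdeg K C.functionField = 1)
    {x : C.functionField} (hx : x ∉ Set.range (kToFF fC).hom) (T : Finset (PrimeDiv C)) :
    ∃ D₀ : PrimeDiv C →₀ ℤ, (∀ P, 0 ≤ D₀ P) ∧ (∀ P ∈ T, D₀ P = 0) ∧
      (∀ h : C.functionField, (∀ P, h = 0 ∨ -D₀ P ≤ ordAt P h) →
        h ∈ Set.range (kToFF fC).hom) ∧
      (∀ h : C.functionField, (∀ P, ordAt P x = 0 → h = 0 ∨ -D₀ P ≤ ordAt P h) →
        ∃ h₁ h₂ : C.functionField, h = h₁ + h₂ ∧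
          (∀ P, 0 ≤ ordAt P x → h₁ = 0 ∨ -D₀ P ≤ ordAt P h₁) ∧
          (∀ P, ordAt P x ≤ 0 → h₂ = 0 ∨ -D₀ P ≤ ordAt P h₂)) := by
  classical
  let _ := kAlgebraFF fC
  obtain ⟨γ, hF⟩ := exists_isCurveOfGenus fC htr
  have hinj := placeOf_injective fC
  have hsurj := placeOf_surjective fC hreg
  obtain ⟨D, hD, -, hL, hT, hcech⟩ := CechRR.exists_nonspecial_cech hF
    (x := x) hx (T.image (placeOf fC))
  refine ⟨D.comapDomain (placeOf fC) hinj.injOn, fun P => ?_, fun P hP => ?_, fun h hh => ?_,
    fun h hh => ?_⟩
  · rw [Finsupp.comapDomain_apply]; exact hD _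
  · rw [Finsupp.comapDomain_apply]; exact hT _ (Finset.mem_image_of_mem _ hP)
  · -- global sections are constant
    have hmem : h ∈ riemannRochSpace D := by
      rw [mem_riemannRochSpace_iff]
      intro v
      obtain ⟨P, rfl⟩ := hsurj v
      have := hh P
      rwa [Finsupp.comapDomain_apply, ← ord_placeOf fC P h] at this
    rw [hL] at hmem
    obtain ⟨c, hc⟩ := Algebra.mem_bot.mp hmem
    exact ⟨c, hc⟩
  · -- the Čech differential is onto
    have hmem : h ∈ CechRR.lamOff {P : Place K C.functionField | P.ord x ≠ 0} D := by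
      rw [CechRR.mem_lamOff_iff]
      intro v hv
      obtain ⟨P, rfl⟩ := hsurj v
      have hv' : ordAt P x = 0 := by
        rw [← ord_placeOf fC P x]
        by_contra hne
        exact hv hne
      have := hh P hv'
      rwa [Finsupp.comapDomain_apply, ← ord_placeOf fC P h] at this
    rw [hcech, Submodule.mem_sup] at hmem
    obtain ⟨h₁, hh₁, h₂, hh₂, rfl⟩ := hmem
    rw [CechRR.mem_lamOff_iff] at hh₁ hh₂
    refine ⟨h₁, h₂, rfl, fun P hP => ?_, fun P hP => ?_⟩
    · have := hh₁ (placeOf fC P) (by
        show ¬ (placeOf fC P).ord x < 0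
        rw [ord_placeOf]; omega)
      rwa [ord_placeOf fC P h₁] at this
    · have := hh₂ (placeOf fC P) (by
        show ¬ 0 < (placeOf fC P).ord x
        rw [ord_placeOf]; omega)
      rwa [ord_placeOf fC P h₂] at this

end Fermat.Agent.S26lib.CurvePlace
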