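/-
S26lib / CurvePlace / Twist (helper9).
`CechRR.exists_nonspecial_cech_twist` in scheme language: on a proper regular curve `C` over an
algebraically closed field, for a non-constant `x ∈ K(C)` and a finite set `T` of points, a non-special
effective divisor `D₀` off `T` (`H⁰(O(D₀)) = K`, Čech differential onto) all of whose twists
`D₀ - p`, `p ∉ Supp D₀`, have `H⁰ = 0` and a surjective Čech differential.
-/
import Mathlib
import Fermat.Agent.S26lib.CurvePlace.Curve
import Fermat.Agent.S26lib.CechRR.Twist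

set_option autoImplicit false

noncomputable section

universe u

open AlgebraicGeometry CategoryTheory AlgebraicCurve

namespace Fermat.Agent.S26lib.CurvePlace

open Weil Fermat.Agent.S18lib

variable {K : Type u} [Field K] {C : Scheme.{u}} [IsIntegral C] [IsLocallyNoetherian C]
  (fC : C ⟶ Spec (CommRingCat.of K)) [IsSeparated fC] [UniversallyClosed fC] [QuasiCompact fC]
  (hreg : ∀ c : C, c = genericPoint C ∨ IsDiscreteValuationRing (C.presheaf.stalk c))

omit [IsSeparated fC] in
include hreg in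
/-- global sections: from the scheme conditions to the Riemann–Roch space -/
theorem mem_rr_of_forall_ordAt (E : letI := kAlgebraFF fC; Divisor K C.functionField)
    (h : C.functionField) (hh : ∀ P : PrimeDiv C, h = 0 ∨ -E (placeOf fC P) ≤ ordAt P h) :
    letI := kAlgebraFF fC
    h ∈ riemannRochSpace E := by
  let _ := kAlgebraFF fC
  rw [mem_riemannRochSpace_iff]
  intro v
  obtain ⟨P, rfl⟩ := placeOf_surjective fC hreg v
  have := hh P
  rwa [← ord_placeOf fC P h] at this

omit [IsSeparated fC] in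
include hreg in
/-- the Čech decomposition: from places to the scheme conditions -/
theorem cech_of_lamOff (x : C.functionField)
    (E : letI := kAlgebraFF fC; Divisor K C.functionField)
    (hcech : letI := kAlgebraFF fC
      CechRR.lamOff {P : Place K C.functionField | P.ord x ≠ 0} E =
        CechRR.lamOff {P : Place K C.functionField | P.ord x < 0} E ⊔
          CechRR.lamOff {P : Place K C.functionField | 0 < P.ord x} E)
    (h : C.functionField)
    (hh : ∀ P : PrimeDiv C, ordAt P x = 0 → h = 0 ∨ -E (placeOf fC P) ≤ ordAt P h) :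
    ∃ h₁ h₂ : C.functionField, h = h₁ + h₂ ∧
      (∀ P : PrimeDiv C, 0 ≤ ordAt P x → h₁ = 0 ∨ -E (placeOf fC P) ≤ ordAt P h₁) ∧
      (∀ P : PrimeDiv C, ordAt P x ≤ 0 → h₂ = 0 ∨ -E (placeOf fC P) ≤ ordAt P h₂) := by
  let _ := kAlgebraFF fC
  have hmem : h ∈ CechRR.lamOff {P : Place K C.functionField | P.ord x ≠ 0} E := by
    rw [CechRR.mem_lamOff_iff]
    intro v hv
    obtain ⟨P, rfl⟩ := placeOf_surjective fC hreg v
    have hv' : ordAt P x = 0 := by
      rw [← ord_placeOf fC P x]
      by_contra hne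
      exact hv hne
    have := hh P hv'
    rwa [← ord_placeOf fC P h] at this
  rw [hcech, Submodule.mem_sup] at hmem
  obtain ⟨h₁, hh₁, h₂, hh₂, rfl⟩ := hmem
  rw [CechRR.mem_lamOff_iff] at hh₁ hh₂
  refine ⟨h₁, h₂, rfl, fun P hP => ?_, fun P hP => ?_⟩
  · have := hh₁ (placeOf fC P) (by
      show ¬ (placeOf fC P).ord x < 0
      rw [ord_placeOf]; omega)
    rwa [ord_placeOf fC P h₁] at this
  · have := hh₂ (placeOf fC P) (by
      show ¬ 0 < (placeOf fC P).ord x
      rw [ord_placeOf]; omega)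
    rwa [ord_placeOf fC P h₂] at this

include hreg in
/-- **Čech vanishing for a non-special divisor and its twists**, in scheme language. -/
theorem exists_nonspecial_cech_twist [IsAlgClosed K] [LocallyOfFiniteType fC]
    (htr : letI := kAlgebraFF fC; Algebra.trdeg K C.functionField = 1)
    {x : C.functionField} (hx : x ∉ Set.range (kToFF fC).hom) (T : Finset (PrimeDiv C)) :
    ∃ D₀ : PrimeDiv C →₀ ℤ, (∀ P, 0 ≤ D₀ P) ∧ (∀ P ∈ T, D₀ P = 0) ∧
      (∀ h : C.functionField, (∀ P, h = 0 ∨ -D₀ P ≤ ordAt P h) →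
        h ∈ Set.range (kToFF fC).hom) ∧
      (∀ h : C.functionField, (∀ P, ordAt P x = 0 → h = 0 ∨ -D₀ P ≤ ordAt P h) →
        ∃ h₁ h₂ : C.functionField, h = h₁ + h₂ ∧
          (∀ P, 0 ≤ ordAt P x → h₁ = 0 ∨ -D₀ P ≤ ordAt P h₁) ∧
          (∀ P, ordAt P x ≤ 0 → h₂ = 0 ∨ -D₀ P ≤ ordAt P h₂)) ∧
      ∀ p : PrimeDiv C, D₀ p = 0 →
        (∀ h : C.functionField,
          (∀ P, h = 0 ∨ -(D₀ - Finsupp.single p 1 : PrimeDiv C →₀ ℤ) P ≤ ordAt P h) → h = 0) ∧
        (∀ h : C.functionField,
          (∀ P, ordAt P x = 0 → h = 0 ∨ -(D₀ - Finsupp.single p 1 : PrimeDiv C →₀ ℤ) P ≤ ordAt P h) →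
          ∃ h₁ h₂ : C.functionField, h = h₁ + h₂ ∧
            (∀ P, 0 ≤ ordAt P x → h₁ = 0 ∨ -(D₀ - Finsupp.single p 1 : PrimeDiv C →₀ ℤ) P ≤ ordAt P h₁) ∧
            (∀ P, ordAt P x ≤ 0 → h₂ = 0 ∨ -(D₀ - Finsupp.single p 1 : PrimeDiv C →₀ ℤ) P ≤ ordAt P h₂)) := by
  classical
  let _ := kAlgebraFF fC
  obtain ⟨γ, hF⟩ := exists_isCurveOfGenus fC htr
  have hinj := placeOf_injective fC
  obtain ⟨D, hD, -, hL, hT, hcech, htw⟩ := CechRR.exists_nonspecial_cech_twist hF
    (x := x) hx (T.image (placeOf fC))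
  have happ : ∀ P, D.comapDomain (placeOf fC) hinj.injOn P = D (placeOf fC P) :=
    fun P => Finsupp.comapDomain_apply _ _ _ _
  refine ⟨D.comapDomain (placeOf fC) hinj.injOn, fun P => ?_, fun P hP => ?_, fun h hh => ?_,
    fun h hh => ?_, fun p hp => ⟨fun h hh => ?_, fun h hh => ?_⟩⟩
  · rw [happ]; exact hD _
  · rw [happ]; exact hT _ (Finset.mem_image_of_mem _ hP)
  · have hmem := mem_rr_of_forall_ordAt fC hreg D h (fun P => by rw [← happ]; exact hh P)
    rw [hL] at hmem
    obtain ⟨c, hc⟩ := Algebra.mem_bot.mp hmem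
    exact ⟨c, hc⟩
  · obtain ⟨h₁, h₂, hsum, hh₁, hh₂⟩ := cech_of_lamOff fC hreg x D hcech h
      (fun P hP => by rw [← happ]; exact hh P hP)
    exact ⟨h₁, h₂, hsum, fun P hP => by rw [happ]; exact hh₁ P hP,
      fun P hP => by rw [happ]; exact hh₂ P hP⟩
  all_goals
    have hp' : D (placeOf fC p) = 0 := by rw [← happ]; exact hp
    obtain ⟨hbot, hcech'⟩ := htw (placeOf fC p) hp'
    have happ' : ∀ P,
        (D.comapDomain (placeOf fC) hinj.injOn - Finsupp.single p 1 : PrimeDiv C →₀ ℤ) P =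
        (D - Finsupp.single (placeOf fC p) 1 : Divisor K C.functionField) (placeOf fC P) := by
      intro P
      rw [Finsupp.sub_apply, Finsupp.sub_apply, happ, Finsupp.single_apply, Finsupp.single_apply]
      by_cases hpP : p = P
      · rw [if_pos hpP, if_pos (congrArg (placeOf fC) hpP)]
      · rw [if_neg hpP, if_neg (fun h => hpP (hinj h))]
  · have hmem := mem_rr_of_forall_ordAt fC hreg (D - Finsupp.single (placeOf fC p) 1) h
      (fun P => by rw [← happ']; exact hh P)
    rw [hbot] at hmem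
    exact (Submodule.mem_bot K).mp hmem
  · obtain ⟨h₁, h₂, hsum, hh₁, hh₂⟩ := cech_of_lamOff fC hreg x
      (D - Finsupp.single (placeOf fC p) 1) hcech' h
      (fun P hP => by rw [← happ']; exact hh P hP)
    exact ⟨h₁, h₂, hsum, fun P hP => by rw [happ']; exact hh₁ P hP,
      fun P hP => by rw [happ']; exact hh₂ P hP⟩

end Fermat.Agent.S26lib.CurvePlace
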