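/-
S26lib / CurvePlace / Charts (helper9).
An integral scheme covered by affine opens with Dedekind coordinate rings is a regular curve in the
sense used by `CurvePlace`: every point is the generic point or a DVR point.
-/
import Mathlib

set_option autoImplicit false

noncomputable section

universe u

open AlgebraicGeometry CategoryTheory

namespace Fermat.Agent.S26lib.CurvePlace

/-- **`hreg` from Dedekind charts** -/
theorem hreg_of_dedekind_charts {C : Scheme.{u}} [IsIntegral C]
    (h : ∀ c : C, ∃ V : C.Opens, IsAffineOpen V ∧ c ∈ V ∧ IsDedekindDomain Γ(C, V)) :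
    ∀ c : C, c = genericPoint C ∨ IsDiscreteValuationRing (C.presheaf.stalk c) := by
  intro c
  obtain ⟨V, hV, hcV, hded⟩ := h c
  have hne : Nonempty V := ⟨⟨c, hcV⟩⟩
  have hηV : genericPoint C ∈ V :=
    ((genericPoint_spec C).mem_open_set_iff V.isOpen).mpr (by simpa using hne)
  by_cases hbot : (hV.primeIdealOf ⟨c, hcV⟩).asIdeal = ⊥
  · left
    have h1 : hV.primeIdealOf ⟨c, hcV⟩ = hV.primeIdealOf ⟨genericPoint C, hηV⟩ := by
      rw [hV.primeIdealOf_genericPoint, genericPoint_eq_bot_of_affine]
      exact PrimeSpectrum.ext hbot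
    have h2 := congrArg hV.fromSpec h1
    rwa [hV.fromSpec_primeIdealOf, hV.fromSpec_primeIdealOf] at h2
  · right
    let _ : Algebra Γ(C, V) (C.presheaf.stalk c) :=
      TopCat.Presheaf.algebra_section_stalk C.presheaf ⟨c, hcV⟩
    have := hV.isLocalization_stalk ⟨c, hcV⟩
    exact IsLocalization.AtPrime.isDiscreteValuationRing_of_dedekind_domain Γ(C, V) hbot
      (C.presheaf.stalk c)

end Fermat.Agent.S26lib.CurvePlace
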